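import Fermat.Agent.LT.T2.H557.CutWhit

/-!
# Row LT, tower T2, station T2.10 (`SMO_AA`), leaf T2.10.10 `CutoffC` (helper557), OFF-MAIN

Registry row 1103.  Proves `Fermat.Agent.LT.T2.H941.CutoffC K` and `Leaf10 K` VERBATIM against
`LT/T2/H941/SmoSpec.lean` (helper941@8afa9067a, sha256 41255efa7193), for every number field `K`
(the hypothesis `T1.T1Out K` of the leaf is not used).

THE KIRILLOV CUT-OFF at a finite place `v`.  `C = 𝔪 𝒪_v = ϖ^e 𝒪_v` (`idealClosure_ball557`),
`ψ_v` of conductor exponent `d`, `z = (y₀)_v`.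
* If `|z| > exp (d + e)` then `W_Φ(diag(y₀,1) g) = 0` for every `Φ` of level `U(𝔪)`
  (`wh_support557`) and the empty combination works.
* Otherwise `cutoff_local557` gives `cᵢ`, `uᵢ` with `∑ cᵢ ψ_v(t uᵢ)` = the indicator function of
  the orbit of `z` on the ball `|t| ≤ exp (d + e)`; `W_{R(n(uᵢ))Φ}(diag(y,1) g) = ψ_v(y_v uᵢ)
  W_Φ(diag(y,1) g)` (`wh_rt_unip557`), `W_Φ(diag(y,1) g) = 0` outside the ball and `W_Φ` is
  constant on the orbit (`wh_orbit557`).  The level is `𝔪' = 𝔪 v^{2L}`, `|uᵢ| ≤ exp L`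
  (`inLevelGroup_conj557`).
-/

set_option autoImplicit false
set_option linter.unusedSectionVars false
set_option linter.style.haveILetI false

open IsDedekindDomain NumberField MeasureTheory
open Fermat.Agent.LT.H556.A0
open Fermat.Agent.LT.T2.H941 Fermat.Agent.LT.T2.H333 Fermat.Agent.LT.T3.H237

noncomputable section

namespace Fermat.Agent.LT.T2.H557

variable {K : Type} [Field K] [NumberField K]

/-- Outside the ball `|y_v| ≤ exp (d + e)` the Whittaker coefficient of a function of level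
`U(𝔪)` vanishes. -/
theorem wh_zero_of_large557 [MeasurableSpace (Adl K)] [BorelSpace (Adl K)]
    {ψ : AddChar (Adl K) Circle} {ν : Measure (Adl K)} {D : Set (Adl K)}
    (hdata : IsWhitData ψ ν D) {Φ : G K → ℂ}
    (hleft : ∀ (γ : GL (Fin 2) K) (g : G K), Φ (T1.ratG K γ * g) = Φ g)
    {𝔪 : Ideal (𝓞 K)} (hΦ : IsLevel 𝔪 Φ) {v : HeightOneSpectrum (𝓞 K)} {e : ℕ}
    (hC : ∀ x : v.adicCompletion K,
      x ∈ idealClosure 𝔪 v ↔ Valued.v x ≤ WithZero.exp (-(e : ℤ)))
    {d : ℤ}
    (hχ2 : ∃ x : v.adicCompletion K, Valued.v x = WithZero.exp (d + 1) ∧ locChar557 ψ v x ≠ 1)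
    (y : (Adl K)ˣ) {g : G K} (hg : TrivAtFin v g)
    (hy : ¬ Valued.v (evF333 v (y : Adl K)) ≤ WithZero.exp (d + e)) :
    wh ψ ν D Φ (tor y * g) = 0 := by
  obtain ⟨x₀, hx₀, hχx₀⟩ := hχ2
  have ht0 : evF333 v (y : Adl K) ≠ 0 := evF333_unit_ne_zero557 v y
  have hvt := val_eq_exp_log557 v ht0
  have hlog : d + e + 1 ≤ WithZero.log (Valued.v (evF333 v (y : Adl K))) := by
    have h4 : WithZero.exp (d + e) < Valued.v (evF333 v (y : Adl K)) := not_le.mp hy
    rw [hvt, WithZero.exp_lt_exp] at h4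
    omega
  refine wh_support557 hdata hleft hΦ hC y hg (t := x₀ / evF333 v (y : Adl K)) ?_ ?_
  · rw [map_div₀, hx₀, hvt, ← WithZero.exp_sub, WithZero.exp_le_exp]
    omega
  · rw [mul_loc557, mul_div_cancel₀ _ ht0]
    exact hχx₀

/-- **T2.10.10 = A.8 KIRILLOV CUT-OFF at a finite place**, for every number field. -/
theorem cutoffC557 (K : Type) [Field K] [NumberField K] : CutoffC K := by
  letI : MeasurableSpace (Adl K) := borel (Adl K)
  haveI : BorelSpace (Adl K) := ⟨rfl⟩
  show ∀ (ψ : AddChar (Adl K) Circle) (ν : Measure (Adl K)) (D : Set (Adl K)),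
    IsWhitData ψ ν D → _
  intro ψ ν D hdata v d hcond 𝔪 h𝔪 y₀ hy₀
  obtain ⟨e, hC, he0, -, hCL⟩ := idealClosure_ball557 𝔪 h𝔪 v
  obtain ⟨hχ1, hχ2⟩ := locChar557_cond hcond
  have hz0 : evF333 v (y₀ : Adl K) ≠ 0 := evF333_unit_ne_zero557 v y₀
  have hψc : Continuous ψ := hdata.1.cont
  have hDfin : ν D < ⊤ := hdata.2.2.2.2.2.2
  by_cases hR : Valued.v (evF333 v (y₀ : Adl K)) ≤ WithZero.exp (d + e)
  · -- the main case
    obtain ⟨n, c, u, hu, hsum⟩ :=
      cutoff_local557 v (locChar557 ψ v) d hχ1 hχ2 e (evF333 v (y₀ : Adl K)) hz0 hR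
    have huL : ∀ i, Valued.v (u i) ≤ WithZero.exp
        (((d + max (e : ℤ) 1 - WithZero.log (Valued.v (evF333 v (y₀ : Adl K)))).toNat : ℕ) : ℤ) :=
      fun i => le_trans (hu i) (WithZero.exp_le_exp.mpr (Int.self_le_toNat _))
    refine ⟨n, c, fun i => T3.unip K (loc557 v (u i)),
      𝔪 * v.asIdeal ^ (2 * (d + max (e : ℤ) 1
        - WithZero.log (Valued.v (evF333 v (y₀ : Adl K)))).toNat), ?_, Ideal.mul_le_left, ?_, ?_, ?_⟩
    · rw [← Ideal.zero_eq_bot]
      exact mul_ne_zero h𝔪 (pow_ne_zero _ v.ne_bot)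
    · intro v' hv' hdvd
      rcases v'.prime.dvd_or_dvd hdvd with h | h
      · exact h
      · exfalso
        have h1 : v'.asIdeal ∣ v.asIdeal := v'.prime.dvd_of_dvd_pow h
        have hle : v.asIdeal ≤ v'.asIdeal := Ideal.le_of_dvd h1
        have heq : v.asIdeal = v'.asIdeal := v.isMaximal.eq_of_le v'.isPrime.ne_top hle
        exact hv' (HeightOneSpectrum.ext heq.symm)
    · intro i
      refine ⟨u i, isUnipAt_unip_loc557 v (u i), fun hv hval => ?_⟩
      have he : e = 0 := he0 hv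
      have hval' : Valued.v (evF333 v (y₀ : Adl K)) = WithZero.exp d := hval
      refine le_trans (hu i) (WithZero.exp_le_exp.mpr ?_)
      rw [hval', WithZero.log_exp, he]
      simp
    · intro Φ hΦc hΦb hleft hlev
      refine ⟨isLevel_lin557 c _
        (fun i k hk => inLevelGroup_conj557 hC _ (hCL _) (huL i) hk) hlev, ?_⟩
      intro y hy g hg
      have ht0 : evF333 v (y : Adl K) ≠ 0 := evF333_unit_ne_zero557 v y
      have hW : wh ψ ν D (lin c (fun i => T3.unip K (loc557 v (u i))) Φ) (tor y * g)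
          = (∑ i, c i * ((locChar557 ψ v (evF333 v (y : Adl K) * u i) : Circle) : ℂ))
            * wh ψ ν D Φ (tor y * g) := by
        rw [wh_lin557 hψc hDfin hΦc hΦb, Finset.sum_mul]
        refine Finset.sum_congr rfl fun i _ => ?_
        rw [wh_rt_unip557 hdata hleft y hg (u i), mul_loc557, locChar557_apply, mul_assoc]
      have horb : InOrbit 𝔪 v y y₀ ↔
          (Valued.v (evF333 v (y : Adl K) * (evF333 v (y₀ : Adl K))⁻¹ - 1)
              ≤ WithZero.exp (-(e : ℤ)) ∧
            Valued.v (evF333 v (y₀ : Adl K) * (evF333 v (y : Adl K))⁻¹ - 1)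
              ≤ WithZero.exp (-(e : ℤ))) := by
        have e1 : ((y * y₀⁻¹ : (Adl K)ˣ) : Adl K).2 v
            = evF333 v (y : Adl K) * (evF333 v (y₀ : Adl K))⁻¹ := by
          show evF333 v ((y * y₀⁻¹ : (Adl K)ˣ) : Adl K) = _
          rw [Units.val_mul, map_mul, evF333_inv557]
        have e2 : ((y₀ * y⁻¹ : (Adl K)ˣ) : Adl K).2 v
            = evF333 v (y₀ : Adl K) * (evF333 v (y : Adl K))⁻¹ := by
          show evF333 v ((y₀ * y⁻¹ : (Adl K)ˣ) : Adl K) = _
          rw [Units.val_mul, map_mul, evF333_inv557]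
        unfold InOrbit
        rw [hC, hC, e1, e2]
      by_cases htR : Valued.v (evF333 v (y : Adl K)) ≤ WithZero.exp (d + e)
      · obtain ⟨hs1, hs0⟩ := hsum _ ht0 htR
        constructor
        · intro ho
          rw [hW, hs1 (horb.1 ho), one_mul]
          exact wh_orbit557 hlev hy hy₀ ho hg
        · intro ho
          rw [hW, hs0 (fun h => ho (horb.2 h)), zero_mul]
      · have hW0 : wh ψ ν D Φ (tor y * g) = 0 :=
          wh_zero_of_large557 hdata hleft hlev hC hχ2 y hg htR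
        constructor
        · intro ho
          rw [hW, hW0, mul_zero, ← wh_orbit557 hlev hy hy₀ ho hg, hW0]
        · intro _
          rw [hW, hW0, mul_zero]
  · -- `y₀` outside the ball: the empty combination
    refine ⟨0, fun i => i.elim0, fun i => i.elim0, 𝔪, h𝔪, le_rfl, fun _ _ h => h,
      fun i => i.elim0, ?_⟩
    intro Φ hΦc hΦb hleft hlev
    have hzero : lin (fun i : Fin 0 => i.elim0) (fun i : Fin 0 => i.elim0) Φ
        = fun _ : G K => (0 : ℂ) := by
      funext x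
      simp [lin]
    rw [hzero]
    refine ⟨fun k _ g => rfl, fun y hy g hg => ?_⟩
    have hlin0 : wh ψ ν D (fun _ : G K => (0 : ℂ)) (tor y * g) = 0 := by
      simp [wh]
    have hW0 : wh ψ ν D Φ (tor y₀ * g) = 0 :=
      wh_zero_of_large557 hdata hleft hlev hC hχ2 y₀ hg hR
    exact ⟨fun _ => by rw [hlin0, hW0], fun _ => hlin0⟩

/-- The registry leaf T2.10.10, verbatim. -/
theorem leaf10_557 (K : Type) [Field K] [NumberField K] : Leaf10 K :=
  fun _ => cutoffC557 K

end Fermat.Agent.LT.T2.H557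

end
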