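import Fermat.Agent.LT.T2.H557.CutMat

/-!
# Row LT, tower T2, station T2.10 (`SMO_AA`), leaf T2.10.10 `CutoffC` (helper557), OFF-MAIN

Part 4 (levels).
* `idealClosure_ball557` : the closure of `𝔪 ≠ 0` in `K_v` is the ball `{|x| ≤ exp (-e)}`,
  `e = 0` iff `v ∤ 𝔪`; the closure of `𝔪 v^L` lies in the ball of radius `exp (-e - L)`;
* `inLevelGroup_unip557`, `inLevelGroup_tor557` : unipotent and torus elements of `U(𝔪)`;
* `inLevelGroup_conj557` : `n(u)⁻¹ U(𝔪 v^{2L}) n(u) ⊆ U(𝔪)` for `|u| ≤ exp L`.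
-/

set_option autoImplicit false

open IsDedekindDomain NumberField MeasureTheory
open Fermat.Agent.LT.H556.A0
open Fermat.Agent.LT.T2.H941 Fermat.Agent.LT.T2.H333

noncomputable section

namespace Fermat.Agent.LT.T2.H557

variable {K : Type} [Field K] [NumberField K]

theorem val_int557 (v : HeightOneSpectrum (𝓞 K)) (s : 𝓞 K) :
    Valued.v (algebraMap K (v.adicCompletion K) (algebraMap (𝓞 K) K s)) = v.intValuation s := by
  rw [valued_algebraMap557, HeightOneSpectrum.valuation_of_algebraMap]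

theorem intVal_eq_exp557 (v : HeightOneSpectrum (𝓞 K)) {s : 𝓞 K} (hs : s ≠ 0) :
    v.intValuation s
      = WithZero.exp (-(((-(WithZero.log (v.intValuation s))).toNat : ℕ) : ℤ)) := by
  have h0 := v.intValuation_ne_zero s hs
  have h1 := v.intValuation_le_one s
  have h2 : WithZero.log (v.intValuation s) ≤ 0 := by
    rw [← WithZero.log_one]
    exact (WithZero.log_le_log h0 one_ne_zero).2 h1
  rw [Int.toNat_of_nonneg (by omega), neg_neg, WithZero.exp_log h0]

theorem isClosed_ball557 (v : HeightOneSpectrum (𝓞 K)) (r : ℤ) :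
    IsClosed (ball557 v r : Set (v.adicCompletion K)) :=
  (ball557 v r).isClosed_of_isOpen (isOpen_ball557 v r)

/-- The closure of a non-zero ideal in `K_v` is a ball. -/
theorem idealClosure_ball557 (𝔪 : Ideal (𝓞 K)) (h𝔪 : 𝔪 ≠ ⊥) (v : HeightOneSpectrum (𝓞 K)) :
    ∃ e : ℕ, (∀ x : v.adicCompletion K,
        x ∈ idealClosure 𝔪 v ↔ Valued.v x ≤ WithZero.exp (-(e : ℤ))) ∧
      (¬ v.asIdeal ∣ 𝔪 → e = 0) ∧ (v.asIdeal ∣ 𝔪 → 1 ≤ e) ∧
      ∀ (L : ℕ) (x : v.adicCompletion K), x ∈ idealClosure (𝔪 * v.asIdeal ^ L) v →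
        Valued.v x ≤ WithZero.exp (-(e : ℤ) - L) := by
  classical
  have hex : ∃ k : ℕ, ∃ s ∈ 𝔪, v.intValuation s = WithZero.exp (-(k : ℤ)) := by
    obtain ⟨s, hs, hs0⟩ := Submodule.exists_mem_ne_zero_of_ne_bot h𝔪
    exact ⟨_, s, hs, intVal_eq_exp557 v hs0⟩
  obtain ⟨s, hs𝔪, hsv⟩ := Nat.find_spec hex
  have hmax : ∀ a ∈ 𝔪, v.intValuation a ≤ WithZero.exp (-((Nat.find hex : ℕ) : ℤ)) := by
    intro a ha
    by_cases ha0 : a = 0
    · rw [ha0, map_zero]
      exact zero_le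
    · have hk := intVal_eq_exp557 v ha0
      have hle : Nat.find hex ≤ (-(WithZero.log (v.intValuation a))).toNat :=
        Nat.find_min' hex ⟨a, ha, hk⟩
      rw [hk, WithZero.exp_le_exp]
      omega
  refine ⟨Nat.find hex, fun x => ⟨fun hx => ?_, fun hx => ?_⟩, fun hv => ?_, fun hv => ?_,
    fun L x hx => ?_⟩
  · -- closure ⊆ ball
    have hsub : idealClosure 𝔪 v ⊆ (ball557 v (-((Nat.find hex : ℕ) : ℤ)) : Set _) := by
      refine closure_minimal ?_ (isClosed_ball557 v _)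
      rintro _ ⟨a, ha, rfl⟩
      refine (mem_ball557 v).2 ?_
      show Valued.v (algebraMap K (v.adicCompletion K) (algebraMap (𝓞 K) K a)) ≤ _
      rw [val_int557]
      exact hmax a ha
    exact (mem_ball557 v).1 (hsub hx)
  · -- ball ⊆ closure
    set S : v.adicCompletion K := algebraMap K (v.adicCompletion K) (algebraMap (𝓞 K) K s)
      with hS
    have hSv : Valued.v S = WithZero.exp (-((Nat.find hex : ℕ) : ℤ)) := by
      rw [hS, val_int557, hsv]
    have hS0 : S ≠ 0 := by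
      intro h
      rw [h, map_zero] at hSv
      exact exp_ne_zero557 _ hSv.symm
    have hxs : Valued.v (x / S) ≤ 1 := by
      rw [map_div₀, hSv, div_eq_mul_inv]
      calc Valued.v x * (WithZero.exp (-((Nat.find hex : ℕ) : ℤ)))⁻¹
          ≤ WithZero.exp (-((Nat.find hex : ℕ) : ℤ))
              * (WithZero.exp (-((Nat.find hex : ℕ) : ℤ)))⁻¹ := mul_le_mul_left hx _
        _ = 1 := mul_inv_cancel₀ (exp_ne_zero557 _)
    unfold idealClosure
    rw [mem_closure_iff_nhds]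
    intro t ht
    have hcont : Filter.Tendsto (fun z : v.adicCompletion K => z * S) (nhds (x / S))
        (nhds x) := by
      have h1 : Continuous (fun z : v.adicCompletion K => z * S) := continuous_mul_const S
      have h2 := h1.tendsto (x / S)
      rwa [div_mul_cancel₀ x hS0] at h2
    obtain ⟨a, ha⟩ := exists_int_mem_nhds333 v hxs (hcont ht)
    refine ⟨algebraMap K (v.adicCompletion K) (algebraMap (𝓞 K) K a) * S, ha, a * s,
      𝔪.mul_mem_left a hs𝔪, ?_⟩
    show algebraMap K (v.adicCompletion K) (algebraMap (𝓞 K) K (a * s))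
      = algebraMap K (v.adicCompletion K) (algebraMap (𝓞 K) K a)
        * algebraMap K (v.adicCompletion K) (algebraMap (𝓞 K) K s)
    rw [map_mul, map_mul]
  · -- `v ∤ 𝔪`
    have hnle : ¬ 𝔪 ≤ v.asIdeal := fun h => hv (Ideal.dvd_iff_le.mpr h)
    obtain ⟨s', hs', hs'v⟩ := Set.not_subset.mp hnle
    have h1 : v.intValuation s' = WithZero.exp (-((0 : ℕ) : ℤ)) := by
      rw [HeightOneSpectrum.intValuation_eq_one_iff.mpr hs'v]
      simp
    exact Nat.le_zero.mp (Nat.find_min' hex ⟨s', hs', h1⟩)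
  · -- `v ∣ 𝔪`
    by_contra hlt
    have h0 : Nat.find hex = 0 := by omega
    rw [h0] at hsv
    have h1 : v.intValuation s = 1 := by
      rw [hsv]
      simp
    have h2 : s ∈ v.asIdeal := Ideal.le_of_dvd hv hs𝔪
    exact HeightOneSpectrum.intValuation_eq_one_iff.mp h1 h2
  · -- the closure of `𝔪 v^L`
    have hsub : idealClosure (𝔪 * v.asIdeal ^ L) v
        ⊆ (ball557 v (-((Nat.find hex : ℕ) : ℤ) - L) : Set _) := by
      refine closure_minimal ?_ (isClosed_ball557 v _)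
      rintro _ ⟨a, ha, rfl⟩
      refine (mem_ball557 v).2 ?_
      show Valued.v (algebraMap K (v.adicCompletion K) (algebraMap (𝓞 K) K a)) ≤ _
      rw [val_int557]
      refine Submodule.mul_induction_on ha (fun m hm n hn => ?_) (fun y z hy hz => ?_)
      · rw [map_mul]
        have hn' : v.intValuation n ≤ WithZero.exp (-(L : ℤ)) :=
          (v.intValuation_le_pow_iff_mem n L).mpr hn
        calc v.intValuation m * v.intValuation n
            ≤ WithZero.exp (-((Nat.find hex : ℕ) : ℤ)) * WithZero.exp (-(L : ℤ)) :=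
              mul_le_mul' (hmax m hm) hn'
          _ = WithZero.exp (-((Nat.find hex : ℕ) : ℤ) - L) := by
              rw [← WithZero.exp_add]
              congr 1
      · exact le_trans (Valuation.map_add _ _ _) (max_le hy hz)
    exact (mem_ball557 v).1 (hsub hx)

/-! ## Unipotent and torus elements of the level group -/

theorem trivAtFin_unip_loc_ne557 {v v' : HeightOneSpectrum (𝓞 K)} (h : v' ≠ v)
    (t : v.adicCompletion K) : finComp v' (T3.unip K (loc557 v t)) = 1 :=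
  (isUnipAt_unip_loc557 v t).1.2 v' h

theorem unip_loc_inv557 (v : HeightOneSpectrum (𝓞 K)) (t : v.adicCompletion K) :
    (T3.unip K (loc557 v t))⁻¹ = T3.unip K (loc557 v (-t)) := by
  rw [unip_inv557, loc557_neg]

/-- `n(t) ∈ U(𝔪)` for `t` in the closure of `𝔪` at `v` (a ball). -/
theorem inLevelGroup_unip557 {𝔪 : Ideal (𝓞 K)} {v : HeightOneSpectrum (𝓞 K)} {e : ℕ}
    (hC : ∀ x : v.adicCompletion K,
      x ∈ idealClosure 𝔪 v ↔ Valued.v x ≤ WithZero.exp (-(e : ℤ)))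
    {t : v.adicCompletion K} (ht : Valued.v t ≤ WithZero.exp (-(e : ℤ))) :
    InLevelGroup 𝔪 (T3.unip K (loc557 v t)) := by
  refine ⟨(isUnipAt_unip_loc557 v t).1.1, fun v' i j => ?_⟩
  by_cases h : v' = v
  · subst h
    have h0 : (0 : v'.adicCompletion K) ∈ idealClosure 𝔪 v' := zero_mem_idealClosure333 𝔪 v'
    have h1 : t ∈ idealClosure 𝔪 v' := (hC t).2 ht
    have h2 : -t ∈ idealClosure 𝔪 v' := (hC (-t)).2 (by rw [Valuation.map_neg]; exact ht)
    rw [unip_loc_inv557, finComp_unip557, finComp_unip557, evF333_loc557_self,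
      evF333_loc557_self]
    constructor
    · fin_cases i <;> fin_cases j <;> simp [Matrix.sub_apply] <;> assumption
    · fin_cases i <;> fin_cases j <;> simp [Matrix.sub_apply] <;> assumption
  · rw [unip_loc_inv557, trivAtFin_unip_loc_ne557 h, trivAtFin_unip_loc_ne557 h, sub_self]
    exact ⟨zero_mem_idealClosure333 𝔪 v', zero_mem_idealClosure333 𝔪 v'⟩

/-- `diag(z, 1) ∈ U(𝔪)` for an idele `z` at `v` with `z ≡ 1`, `z⁻¹ ≡ 1`. -/
theorem inLevelGroup_tor557 {𝔪 : Ideal (𝓞 K)} {v : HeightOneSpectrum (𝓞 K)} {z : (Adl K)ˣ}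
    (hz : IsIdeleAtFin v z)
    (h1 : evF333 v (z : Adl K) - 1 ∈ idealClosure 𝔪 v)
    (h2 : evF333 v ((z⁻¹ : (Adl K)ˣ) : Adl K) - 1 ∈ idealClosure 𝔪 v) :
    InLevelGroup 𝔪 (tor z) := by
  refine ⟨(isLocalAtFin_tor557 hz).1, fun v' i j => ?_⟩
  by_cases h : v' = v
  · subst h
    have h0 : (0 : v'.adicCompletion K) ∈ idealClosure 𝔪 v' := zero_mem_idealClosure333 𝔪 v'
    have h2' := h2
    rw [evF333_inv557] at h2'
    rw [tor_inv557, finComp_tor557, finComp_tor557]
    constructor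
    · fin_cases i <;> fin_cases j <;> simp [Matrix.sub_apply] <;> assumption
    · fin_cases i <;> fin_cases j <;> simp [Matrix.sub_apply] <;> assumption
  · have e1 : finComp v' (tor z) = 1 := (isLocalAtFin_tor557 hz).2 v' h
    have e2 : finComp v' (tor z)⁻¹ = 1 := trivAtFin_inv333 e1
    rw [e1, e2, sub_self]
    exact ⟨zero_mem_idealClosure333 𝔪 v', zero_mem_idealClosure333 𝔪 v'⟩

/-! ## Conjugation by a unipotent element -/

theorem conj_sub_one557 {F : Type*} [Field F] (M : Matrix (Fin 2) (Fin 2) F) (u : F) :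
    !![1, -u; 0, 1] * M * !![1, u; 0, 1] - 1
      = !![(M - 1) 0 0 - u * (M - 1) 1 0,
          ((M - 1) 0 0 - u * (M - 1) 1 0) * u + (M - 1) 0 1 - u * (M - 1) 1 1;
          (M - 1) 1 0, (M - 1) 1 0 * u + (M - 1) 1 1] := by
  obtain ⟨a, b, c, d, rfl⟩ : ∃ a b c d : F, M = !![a, b; c, d] :=
    ⟨M 0 0, M 0 1, M 1 0, M 1 1, Matrix.eta_fin_two M⟩
  rw [Matrix.mul_fin_two, Matrix.mul_fin_two, Matrix.one_fin_two]
  ext i j
  fin_cases i <;> fin_cases j <;> simp [Matrix.sub_apply] <;> ring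

theorem conj_entries557 (v : HeightOneSpectrum (𝓞 K)) (e L : ℕ)
    (M : Matrix (Fin 2) (Fin 2) (v.adicCompletion K)) (u : v.adicCompletion K)
    (hu : Valued.v u ≤ WithZero.exp (L : ℤ))
    (hM : ∀ i j, Valued.v ((M - 1) i j) ≤ WithZero.exp (-(e : ℤ) - ((2 * L : ℕ) : ℤ)))
    (i j : Fin 2) :
    Valued.v ((!![1, -u; 0, 1] * M * !![1, u; 0, 1] - 1) i j) ≤ WithZero.exp (-(e : ℤ)) := by
  have hmul : ∀ x y : v.adicCompletion K,
      Valued.v x ≤ WithZero.exp (-(e : ℤ) - ((2 * L : ℕ) : ℤ)) →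
      Valued.v y ≤ WithZero.exp ((2 * L : ℕ) : ℤ) →
      Valued.v (x * y) ≤ WithZero.exp (-(e : ℤ)) := by
    intro x y hx hy
    rw [map_mul]
    calc Valued.v x * Valued.v y
        ≤ WithZero.exp (-(e : ℤ) - ((2 * L : ℕ) : ℤ)) * WithZero.exp ((2 * L : ℕ) : ℤ) :=
          mul_le_mul' hx hy
      _ = WithZero.exp (-(e : ℤ)) := by rw [← WithZero.exp_add]; congr 1; ring
  have hu1 : Valued.v u ≤ WithZero.exp ((2 * L : ℕ) : ℤ) :=
    le_trans hu (WithZero.exp_le_exp.mpr (by push_cast; omega))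
  have hone : Valued.v (1 : v.adicCompletion K) ≤ WithZero.exp ((2 * L : ℕ) : ℤ) := by
    rw [map_one, ← WithZero.exp_zero, WithZero.exp_le_exp]
    positivity
  have huu : Valued.v (u * u) ≤ WithZero.exp ((2 * L : ℕ) : ℤ) := by
    rw [map_mul]
    calc Valued.v u * Valued.v u ≤ WithZero.exp (L : ℤ) * WithZero.exp (L : ℤ) :=
          mul_le_mul' hu hu
      _ = WithZero.exp ((2 * L : ℕ) : ℤ) := by
          rw [← WithZero.exp_add]; congr 1; push_cast; ring
  have hadd : ∀ x y : v.adicCompletion K, Valued.v x ≤ WithZero.exp (-(e : ℤ)) →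
      Valued.v y ≤ WithZero.exp (-(e : ℤ)) → Valued.v (x + y) ≤ WithZero.exp (-(e : ℤ)) :=
    fun x y hx hy => le_trans (Valuation.map_add _ _ _) (max_le hx hy)
  have hsub : ∀ x y : v.adicCompletion K, Valued.v x ≤ WithZero.exp (-(e : ℤ)) →
      Valued.v y ≤ WithZero.exp (-(e : ℤ)) → Valued.v (x - y) ≤ WithZero.exp (-(e : ℤ)) :=
    fun x y hx hy => le_trans (Valuation.map_sub _ _ _) (max_le hx hy)
  have t1 : ∀ i j, Valued.v ((M - 1) i j) ≤ WithZero.exp (-(e : ℤ)) := by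
    intro i j
    have := hmul _ 1 (hM i j) hone
    rwa [mul_one] at this
  have t2 : ∀ i j, Valued.v (u * (M - 1) i j) ≤ WithZero.exp (-(e : ℤ)) := by
    intro i j
    have := hmul _ u (hM i j) hu1
    rwa [mul_comm] at this
  have t3 : ∀ i j, Valued.v ((M - 1) i j * u) ≤ WithZero.exp (-(e : ℤ)) :=
    fun i j => hmul _ u (hM i j) hu1
  have t4 : ∀ i j, Valued.v (u * (M - 1) i j * u) ≤ WithZero.exp (-(e : ℤ)) := by
    intro i j
    have := hmul _ (u * u) (hM i j) huu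
    have e1 : u * (M - 1) i j * u = (M - 1) i j * (u * u) := by ring
    rwa [e1]
  rw [conj_sub_one557]
  fin_cases i <;> fin_cases j
  · exact hsub _ _ (t1 0 0) (t2 1 0)
  · show Valued.v (((M - 1) 0 0 - u * (M - 1) 1 0) * u + (M - 1) 0 1 - u * (M - 1) 1 1) ≤ _
    have e1 : ((M - 1) 0 0 - u * (M - 1) 1 0) * u + (M - 1) 0 1 - u * (M - 1) 1 1
        = ((M - 1) 0 0 * u - u * (M - 1) 1 0 * u) + (M - 1) 0 1 - u * (M - 1) 1 1 := by ring
    rw [e1]
    exact hsub _ _ (hadd _ _ (hsub _ _ (t3 0 0) (t4 1 0)) (t1 0 1)) (t2 1 1)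
  · exact t1 1 0
  · exact hadd _ _ (t3 1 0) (t1 1 1)

/-- `n(u)⁻¹ U(𝔪 v^{2L}) n(u) ⊆ U(𝔪)` for `|u| ≤ exp L`. -/
theorem inLevelGroup_conj557 {𝔪 : Ideal (𝓞 K)} {v : HeightOneSpectrum (𝓞 K)} {e : ℕ}
    (hC : ∀ x : v.adicCompletion K,
      x ∈ idealClosure 𝔪 v ↔ Valued.v x ≤ WithZero.exp (-(e : ℤ)))
    (L : ℕ)
    (hL : ∀ x : v.adicCompletion K, x ∈ idealClosure (𝔪 * v.asIdeal ^ (2 * L)) v →
        Valued.v x ≤ WithZero.exp (-(e : ℤ) - ((2 * L : ℕ) : ℤ)))
    {u : v.adicCompletion K} (hu : Valued.v u ≤ WithZero.exp (L : ℤ))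
    {k : G K} (hk : InLevelGroup (𝔪 * v.asIdeal ^ (2 * L)) k) :
    InLevelGroup 𝔪 ((T3.unip K (loc557 v u))⁻¹ * k * T3.unip K (loc557 v u)) := by
  have hmono : ∀ v' : HeightOneSpectrum (𝓞 K),
      idealClosure (𝔪 * v.asIdeal ^ (2 * L)) v' ⊆ idealClosure 𝔪 v' := by
    intro v'
    unfold idealClosure
    exact closure_mono (Set.image_mono (SetLike.coe_subset_coe.mpr Ideal.mul_le_left))
  have hinv : ((T3.unip K (loc557 v u))⁻¹ * k * T3.unip K (loc557 v u))⁻¹
      = (T3.unip K (loc557 v u))⁻¹ * k⁻¹ * T3.unip K (loc557 v u) := by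
    group
  refine ⟨fun w => ?_, fun v' i j => ?_⟩
  · rw [trivAtInf_iff333, Units.val_mul, Units.val_mul, Matrix.map_mul, Matrix.map_mul,
      (trivAtInf_iff333 w k).1 (hk.1 w),
      (trivAtInf_iff333 w _).1 ((isUnipAt_unip_loc557 v u).1.1 w), unip_loc_inv557,
      (trivAtInf_iff333 w _).1 ((isUnipAt_unip_loc557 v (-u)).1.1 w), one_mul, one_mul]
  · rw [hinv, finComp_mul333, finComp_mul333, finComp_mul333, finComp_mul333]
    by_cases h : v' = v
    · subst h
      rw [unip_loc_inv557, finComp_unip557, finComp_unip557, evF333_loc557_self,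
        evF333_loc557_self]
      constructor
      · exact (hC _).2 (conj_entries557 v' e L _ u hu (fun i j => hL _ (hk.2 v' i j).1) i j)
      · exact (hC _).2 (conj_entries557 v' e L _ u hu (fun i j => hL _ (hk.2 v' i j).2) i j)
    · rw [unip_loc_inv557, trivAtFin_unip_loc_ne557 h, trivAtFin_unip_loc_ne557 h, one_mul,
        mul_one, one_mul, mul_one]
      exact ⟨hmono v' (hk.2 v' i j).1, hmono v' (hk.2 v' i j).2⟩

/-- The level of a finite combination of right translates. -/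
theorem isLevel_lin557 {𝔪 𝔪' : Ideal (𝓞 K)} {n : ℕ} (c : Fin n → ℂ) (p : Fin n → G K)
    (hp : ∀ i, ∀ k : G K, InLevelGroup 𝔪' k → InLevelGroup 𝔪 ((p i)⁻¹ * k * p i))
    {Φ : G K → ℂ} (hΦ : IsLevel 𝔪 Φ) : IsLevel 𝔪' (lin c p Φ) := by
  intro k hk g
  unfold lin
  refine Finset.sum_congr rfl fun i _ => ?_
  have e1 : g * k * p i = g * p i * ((p i)⁻¹ * k * p i) := by group
  rw [e1, hΦ _ (hp i k hk)]

end Fermat.Agent.LT.T2.H557

end
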