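import Mathlib
import Fermat.Agent.LT.H11.LC

/-!
# Row LT, tower T2, station T2.10 (`SMO_AA`), leaf T2.10.10 `CutoffC` (helper557), OFF-MAIN

Part 1 (LOCAL): Mathlib + `LT/H11/LC.lean` (helper11, byte-identical) only.

* `ball557 v r` : the closed ball `{x : Valued.v x ≤ exp r}` of `K_v` as an additive subgroup; it
  is compact and open, so the quotient of two balls is finite;
* `sum_out_eq_zero557`, `sum_out_eq_card557` : orthogonality on a finite quotient, in the form of
  a sum over representatives;
* `indicator_exists557` : for a character `χ` of `K_v` with conductor exponent `d`, the indicator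
  function of a coset `z + B(b)` on the ball `B(a)` is a finite combination of the functions
  `t ↦ χ(t u)`, `u ∈ B(d - b)`.
-/

set_option autoImplicit false
set_option linter.style.haveILetI false

open IsDedekindDomain NumberField

noncomputable section

namespace Fermat.Agent.LT.T2.H557

variable {K : Type} [Field K] [NumberField K] (v : HeightOneSpectrum (𝓞 K))

/-- The closed ball `{x : |x|_v ≤ exp r}` of `K_v`, an additive subgroup. -/
def ball557 (r : ℤ) : AddSubgroup (v.adicCompletion K) where
  carrier := {x | Valued.v x ≤ WithZero.exp r}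
  zero_mem' := by
    rw [Set.mem_ofPred_eq, map_zero]
    exact zero_le
  add_mem' := fun {a b} ha hb => by
    rw [Set.mem_ofPred_eq] at ha hb ⊢
    exact le_trans (Valuation.map_add _ _ _) (max_le ha hb)
  neg_mem' := fun {a} ha => by
    rw [Set.mem_ofPred_eq] at ha ⊢
    rw [Valuation.map_neg]
    exact ha

theorem mem_ball557 {r : ℤ} {x : v.adicCompletion K} :
    x ∈ ball557 v r ↔ Valued.v x ≤ WithZero.exp r := Set.mem_ofPred

theorem valued_algebraMap557 (k : K) :
    Valued.v (algebraMap K (v.adicCompletion K) k) = v.valuation K k :=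
  HeightOneSpectrum.valuedAdicCompletion_eq_valuation' v k

/-- Every `exp r` is a value of the valuation of `K_v`. -/
theorem exists_val_eq_exp557 (r : ℤ) :
    ∃ c : v.adicCompletion K, Valued.v c = WithZero.exp r := by
  obtain ⟨π, hπ⟩ := HeightOneSpectrum.valuation_exists_uniformizer K v
  refine ⟨(algebraMap K (v.adicCompletion K) π) ^ (-r), ?_⟩
  rw [map_zpow₀, valued_algebraMap557, hπ, ← WithZero.exp_zsmul]
  simp

theorem exp_ne_zero557 (r : ℤ) : (WithZero.exp r : WithZero (Multiplicative ℤ)) ≠ 0 :=
  WithZero.exp_ne_zero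

theorem ball_eq_image557 (r : ℤ) (c : v.adicCompletion K) (hc : Valued.v c = WithZero.exp r) :
    (ball557 v r : Set (v.adicCompletion K))
      = (fun x => c * x) '' (v.adicCompletionIntegers K : Set (v.adicCompletion K)) := by
  have hc0 : c ≠ 0 := by
    intro h
    rw [h, map_zero] at hc
    exact exp_ne_zero557 r hc.symm
  ext x
  constructor
  · intro hx
    have hx' : Valued.v x ≤ WithZero.exp r := (mem_ball557 v).1 hx
    refine ⟨c⁻¹ * x, ?_, ?_⟩
    · show Valued.v (c⁻¹ * x) ≤ 1
      rw [map_mul, map_inv₀, hc]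
      calc (WithZero.exp r)⁻¹ * Valued.v x ≤ (WithZero.exp r)⁻¹ * WithZero.exp r :=
            mul_le_mul_right hx' _
        _ = 1 := inv_mul_cancel₀ (exp_ne_zero557 r)
    · show c * (c⁻¹ * x) = x
      rw [← mul_assoc, mul_inv_cancel₀ hc0, one_mul]
  · rintro ⟨y, hy, rfl⟩
    have hy' : Valued.v y ≤ 1 := hy
    refine (mem_ball557 v).2 ?_
    show Valued.v (c * y) ≤ WithZero.exp r
    rw [map_mul, hc]
    calc WithZero.exp r * Valued.v y ≤ WithZero.exp r * 1 := mul_le_mul_right hy' _
      _ = WithZero.exp r := mul_one _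

theorem isCompact_ball557 (r : ℤ) : IsCompact (ball557 v r : Set (v.adicCompletion K)) := by
  obtain ⟨c, hc⟩ := exists_val_eq_exp557 v r
  rw [ball_eq_image557 v r c hc]
  exact (Fermat.Agent.LT.H11.LC.isCompact_integers_h11 K v).image (continuous_const_mul c)

theorem isOpen_ball557 (r : ℤ) : IsOpen (ball557 v r : Set (v.adicCompletion K)) := by
  obtain ⟨c, hc⟩ := exists_val_eq_exp557 v r
  have hc0 : c ≠ 0 := by
    intro h
    rw [h, map_zero] at hc
    exact exp_ne_zero557 r hc.symm
  rw [ball_eq_image557 v r c hc]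
  exact (Homeomorph.mulLeft₀ c hc0).isOpenMap _ (Valued.isOpen_integer (v.adicCompletion K))

theorem ball_mono557 {r r' : ℤ} (h : r' ≤ r) : ball557 v r' ≤ ball557 v r := fun _ hx =>
  (mem_ball557 v).2 (le_trans ((mem_ball557 v).1 hx) (WithZero.exp_le_exp.mpr h))

/-- The quotient of two balls is finite. -/
theorem finite_ball_quot557 (r r' : ℤ) :
    Finite (ball557 v r ⧸ (ball557 v r').addSubgroupOf (ball557 v r)) := by
  have : CompactSpace (ball557 v r) := isCompact_iff_compactSpace.mp (isCompact_ball557 v r)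
  refine AddSubgroup.quotient_finite_of_isOpen _ ?_
  exact (isOpen_ball557 v r').preimage continuous_subtype_val

/-! ## Orthogonality on a finite quotient, as a sum over representatives -/

section Orth

variable {A : Type*} [AddCommGroup A] (B : AddSubgroup A)

theorem out_class557 (f : A → ℂ) (hadd : ∀ a a', f (a + a') = f a * f a')
    (hB : ∀ b ∈ B, f b = 1) (a : A) :
    f ((QuotientAddGroup.mk a : A ⧸ B).out) = f a := by
  have h : (QuotientAddGroup.mk ((QuotientAddGroup.mk a : A ⧸ B).out) : A ⧸ B)
      = QuotientAddGroup.mk a := QuotientAddGroup.out_eq' _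
  rw [QuotientAddGroup.eq] at h
  have e : a = (QuotientAddGroup.mk a : A ⧸ B).out + (-(QuotientAddGroup.mk a : A ⧸ B).out + a) := by
    abel
  conv_rhs => rw [e]
  rw [hadd, hB _ h, mul_one]

theorem sum_out_eq_zero557 [Fintype (A ⧸ B)] (f : A → ℂ)
    (hadd : ∀ a a', f (a + a') = f a * f a') (hB : ∀ b ∈ B, f b = 1)
    (a₀ : A) (ha₀ : f a₀ ≠ 1) : ∑ q : A ⧸ B, f q.out = 0 := by
  have h1 : ∑ q : A ⧸ B, f q.out
      = ∑ q : A ⧸ B, f (q + (QuotientAddGroup.mk a₀ : A ⧸ B)).out :=
    (Equiv.sum_comp (Equiv.addRight (QuotientAddGroup.mk a₀ : A ⧸ B)) (fun q => f q.out)).symm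
  have h2 : ∀ q : A ⧸ B, f (q + (QuotientAddGroup.mk a₀ : A ⧸ B)).out = f q.out * f a₀ := by
    intro q
    have e : q + (QuotientAddGroup.mk a₀ : A ⧸ B) = QuotientAddGroup.mk (q.out + a₀) := by
      rw [QuotientAddGroup.mk_add, QuotientAddGroup.out_eq']
    rw [e, out_class557 B f hadd hB, hadd]
  rw [Finset.sum_congr rfl (fun q _ => h2 q), ← Finset.sum_mul] at h1
  have h3 : (∑ q : A ⧸ B, f q.out) * (1 - f a₀) = 0 := by linear_combination h1
  rcases mul_eq_zero.mp h3 with h | h
  · exact h
  · exact absurd (sub_eq_zero.mp h).symm ha₀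

end Orth

/-! ## The indicator function of a coset of a ball -/

/-- For a character `χ` of `K_v` with conductor exponent `d` (trivial on `B(d)`, not on `B(d+1)`)
the indicator function of the coset `z + B(b)` is, on the ball `B(a) ∋ z`, a finite combination
of the functions `t ↦ χ(t u)` with `u ∈ B(d - b)`. -/
theorem indicator_exists557 (χ : AddChar (v.adicCompletion K) Circle) (d : ℤ)
    (h1 : ∀ x : v.adicCompletion K, Valued.v x ≤ WithZero.exp d → χ x = 1)
    (h2 : ∃ x : v.adicCompletion K, Valued.v x = WithZero.exp (d + 1) ∧ χ x ≠ 1)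
    (a b : ℤ) (z : v.adicCompletion K) (hz : Valued.v z ≤ WithZero.exp a) :
    ∃ (n : ℕ) (c : Fin n → ℂ) (u : Fin n → v.adicCompletion K),
      (∀ i, Valued.v (u i) ≤ WithZero.exp (d - b)) ∧
      ∀ t : v.adicCompletion K, Valued.v t ≤ WithZero.exp a →
        ∑ i, c i * ((χ (t * u i) : Circle) : ℂ)
          = if Valued.v (t - z) ≤ WithZero.exp b then 1 else 0 := by
  classical
  have hfin : Finite (ball557 v (d - b) ⧸ (ball557 v (d - a)).addSubgroupOf (ball557 v (d - b))) :=
    finite_ball_quot557 v (d - b) (d - a)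
  letI : Fintype (ball557 v (d - b) ⧸ (ball557 v (d - a)).addSubgroupOf (ball557 v (d - b))) :=
    Fintype.ofFinite _
  let e := Fintype.equivFin
    (ball557 v (d - b) ⧸ (ball557 v (d - a)).addSubgroupOf (ball557 v (d - b)))
  refine ⟨_, fun i => ((Fintype.card
      (ball557 v (d - b) ⧸ (ball557 v (d - a)).addSubgroupOf (ball557 v (d - b))) : ℕ) : ℂ)⁻¹
        * (starRingEnd ℂ) ((χ (z * (((e.symm i).out : ball557 v (d - b)) : v.adicCompletion K))
            : Circle) : ℂ),
    fun i => (((e.symm i).out : ball557 v (d - b)) : v.adicCompletion K),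
    fun i => (mem_ball557 v).1 ((e.symm i).out : ball557 v (d - b)).2, ?_⟩
  intro t ht
  have hs : Valued.v (t - z) ≤ WithZero.exp a :=
    le_trans (Valuation.map_sub _ _ _) (max_le ht hz)
  let f : ball557 v (d - b) → ℂ := fun x =>
    ((χ ((t - z) * (x : v.adicCompletion K)) : Circle) : ℂ)
  have hadd : ∀ x y, f (x + y) = f x * f y := by
    intro x y
    simp only [f]
    rw [AddSubgroup.coe_add, mul_add, AddChar.map_add_eq_mul, Circle.coe_mul]
  have hfB : ∀ x ∈ (ball557 v (d - a)).addSubgroupOf (ball557 v (d - b)), f x = 1 := by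
    intro x hx
    have hx' : Valued.v (x : v.adicCompletion K) ≤ WithZero.exp (d - a) :=
      (mem_ball557 v).1 (AddSubgroup.mem_addSubgroupOf.1 hx)
    have h3 : χ ((t - z) * (x : v.adicCompletion K)) = 1 := by
      apply h1
      rw [map_mul]
      calc Valued.v (t - z) * Valued.v (x : v.adicCompletion K)
          ≤ WithZero.exp a * WithZero.exp (d - a) := mul_le_mul' hs hx'
        _ = WithZero.exp d := by rw [← WithZero.exp_add]; congr 1; ring
    simp only [f, h3, Circle.coe_one]
  have hterm : ∀ i : Fin (Fintype.card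
      (ball557 v (d - b) ⧸ (ball557 v (d - a)).addSubgroupOf (ball557 v (d - b)))),
      ((Fintype.card
      (ball557 v (d - b) ⧸ (ball557 v (d - a)).addSubgroupOf (ball557 v (d - b))) : ℕ) : ℂ)⁻¹
        * (starRingEnd ℂ) ((χ (z * (((e.symm i).out : ball557 v (d - b)) : v.adicCompletion K))
            : Circle) : ℂ)
        * ((χ (t * (((e.symm i).out : ball557 v (d - b)) : v.adicCompletion K)) : Circle) : ℂ)
      = ((Fintype.card
      (ball557 v (d - b) ⧸ (ball557 v (d - a)).addSubgroupOf (ball557 v (d - b))) : ℕ) : ℂ)⁻¹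
        * f (e.symm i).out := by
    intro i
    simp only [f]
    rw [mul_assoc, ← Circle.coe_inv_eq_conj, ← Circle.coe_mul, ← AddChar.map_neg_eq_inv,
      ← AddChar.map_add_eq_mul]
    congr 3
    ring
  rw [Finset.sum_congr rfl (fun i _ => hterm i), ← Finset.mul_sum,
    Equiv.sum_comp e.symm (fun q => f q.out)]
  by_cases hsb : Valued.v (t - z) ≤ WithZero.exp b
  · rw [if_pos hsb]
    have hone : ∀ q : ball557 v (d - b) ⧸ (ball557 v (d - a)).addSubgroupOf (ball557 v (d - b)),
        f q.out = 1 := by
      intro q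
      have h3 : χ ((t - z) * ((q.out : ball557 v (d - b)) : v.adicCompletion K)) = 1 := by
        apply h1
        rw [map_mul]
        calc Valued.v (t - z) * Valued.v ((q.out : ball557 v (d - b)) : v.adicCompletion K)
            ≤ WithZero.exp b * WithZero.exp (d - b) :=
              mul_le_mul' hsb ((mem_ball557 v).1 (q.out : ball557 v (d - b)).2)
          _ = WithZero.exp d := by rw [← WithZero.exp_add]; congr 1; ring
      simp only [f, h3, Circle.coe_one]
    rw [Finset.sum_congr rfl (fun q _ => hone q), Finset.sum_const, Finset.card_univ,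
      nsmul_eq_mul, mul_one]
    have hN : ((Fintype.card
      (ball557 v (d - b) ⧸ (ball557 v (d - a)).addSubgroupOf (ball557 v (d - b))) : ℕ) : ℂ) ≠ 0 := by
      exact_mod_cast Fintype.card_ne_zero
    exact inv_mul_cancel₀ hN
  · rw [if_neg hsb]
    obtain ⟨x₀, hx₀, hχ⟩ := h2
    have hs0 : Valued.v (t - z) ≠ 0 := by
      intro h
      apply hsb
      rw [h]
      exact zero_le
    have hs0' : t - z ≠ 0 := by
      intro h
      apply hs0
      rw [h, map_zero]
    have hlog : b + 1 ≤ WithZero.log (Valued.v (t - z)) := by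
      have h4 : WithZero.exp b < Valued.v (t - z) := not_le.mp hsb
      rw [← WithZero.exp_log hs0, WithZero.exp_lt_exp] at h4
      omega
    have ha₀ : Valued.v (x₀ / (t - z)) ≤ WithZero.exp (d - b) := by
      rw [map_div₀, hx₀, ← WithZero.exp_log hs0, ← WithZero.exp_sub, WithZero.exp_le_exp]
      omega
    have hfa : f ⟨x₀ / (t - z), (mem_ball557 v).2 ha₀⟩ ≠ 1 := by
      simp only [f]
      rw [mul_div_cancel₀ _ hs0']
      intro h
      exact hχ (Circle.coe_eq_one.mp h)
    rw [sum_out_eq_zero557 _ f hadd hfB _ hfa, mul_zero]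

/-! ## The cut-off function of an orbit -/

theorem val_eq_exp_log557 {x : v.adicCompletion K} (hx : x ≠ 0) :
    Valued.v x = WithZero.exp (WithZero.log (Valued.v x)) :=
  (WithZero.exp_log ((Valuation.ne_zero_iff _).mpr hx)).symm

/-- THE LOCAL CUT-OFF.  `χ` a character of `K_v` with conductor exponent `d`, `e ≥ 0`,
`z ≠ 0` in the ball `B(d + e)`.  The indicator function of the orbit
`{t : t / z ≡ 1, z / t ≡ 1 mod ϖ^e 𝒪_v}` is, on `B(d + e) ∖ {0}`, a finite combination of the
functions `t ↦ χ(t u)` with `|u| ≤ exp (d + max e 1 - log |z|)`. -/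
theorem cutoff_local557 (χ : AddChar (v.adicCompletion K) Circle) (d : ℤ)
    (h1 : ∀ x : v.adicCompletion K, Valued.v x ≤ WithZero.exp d → χ x = 1)
    (h2 : ∃ x : v.adicCompletion K, Valued.v x = WithZero.exp (d + 1) ∧ χ x ≠ 1)
    (e : ℕ) (z : v.adicCompletion K) (hz0 : z ≠ 0)
    (hz : Valued.v z ≤ WithZero.exp (d + e)) :
    ∃ (n : ℕ) (c : Fin n → ℂ) (u : Fin n → v.adicCompletion K),
      (∀ i, Valued.v (u i) ≤ WithZero.exp (d + max (e : ℤ) 1 - WithZero.log (Valued.v z))) ∧
      ∀ t : v.adicCompletion K, t ≠ 0 → Valued.v t ≤ WithZero.exp (d + e) →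
        ((Valued.v (t * z⁻¹ - 1) ≤ WithZero.exp (-(e : ℤ)) ∧
            Valued.v (z * t⁻¹ - 1) ≤ WithZero.exp (-(e : ℤ))) →
          ∑ i, c i * ((χ (t * u i) : Circle) : ℂ) = 1) ∧
        (¬ (Valued.v (t * z⁻¹ - 1) ≤ WithZero.exp (-(e : ℤ)) ∧
            Valued.v (z * t⁻¹ - 1) ≤ WithZero.exp (-(e : ℤ))) →
          ∑ i, c i * ((χ (t * u i) : Circle) : ℂ) = 0) := by
  have hvz := val_eq_exp_log557 v hz0
  set lz : ℤ := WithZero.log (Valued.v z) with hlz
  rcases Nat.eq_zero_or_pos e with he | he
  · -- `e = 0`: the orbit is `{|t| = |z|}`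
    subst he
    have h00 : Valued.v (0 : v.adicCompletion K) ≤ WithZero.exp (d + ((0 : ℕ) : ℤ)) := by
      rw [map_zero]
      exact zero_le
    obtain ⟨n₁, c₁, u₁, hu₁, hsum₁⟩ := indicator_exists557 v χ d h1 h2 (d + ((0 : ℕ) : ℤ)) lz 0 h00
    obtain ⟨n₂, c₂, u₂, hu₂, hsum₂⟩ :=
      indicator_exists557 v χ d h1 h2 (d + ((0 : ℕ) : ℤ)) (lz - 1) 0 h00
    refine ⟨n₁ + n₂, Fin.append c₁ (fun j => - c₂ j), Fin.append u₁ u₂, ?_, ?_⟩
    · intro i
      refine Fin.addCases (fun i => ?_) (fun j => ?_) i
      · rw [Fin.append_left]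
        refine le_trans (hu₁ i) (WithZero.exp_le_exp.mpr ?_)
        have : max ((0 : ℕ) : ℤ) 1 = 1 := by simp
        rw [this]
        omega
      · rw [Fin.append_right]
        refine le_trans (hu₂ j) (WithZero.exp_le_exp.mpr ?_)
        have : max ((0 : ℕ) : ℤ) 1 = 1 := by simp
        rw [this]
        omega
    · intro t ht0 ht
      have hvt := val_eq_exp_log557 v ht0
      set lt : ℤ := WithZero.log (Valued.v t) with hlt
      have hS : ∑ i, Fin.append c₁ (fun j => - c₂ j) i
            * ((χ (t * Fin.append u₁ u₂ i) : Circle) : ℂ)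
          = (if lt ≤ lz then (1 : ℂ) else 0) - (if lt ≤ lz - 1 then (1 : ℂ) else 0) := by
        rw [Fin.sum_univ_add]
        simp only [Fin.append_left, Fin.append_right, neg_mul, Finset.sum_neg_distrib]
        rw [hsum₁ t ht, hsum₂ t ht, sub_zero, hvt, ← sub_eq_add_neg]
        simp only [WithZero.exp_le_exp]
      have hexp0 : WithZero.exp (-((0 : ℕ) : ℤ)) = (1 : WithZero (Multiplicative ℤ)) := by
        simp
      have hone : Valued.v (1 : v.adicCompletion K) = 1 := map_one _
      have key : (Valued.v (t * z⁻¹ - 1) ≤ WithZero.exp (-((0 : ℕ) : ℤ)) ∧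
            Valued.v (z * t⁻¹ - 1) ≤ WithZero.exp (-((0 : ℕ) : ℤ))) ↔ lt = lz := by
        rw [hexp0]
        constructor
        · rintro ⟨ha, hb⟩
          have ha' : Valued.v (t * z⁻¹) ≤ 1 := by
            have e1 : t * z⁻¹ = (t * z⁻¹ - 1) + 1 := by ring
            rw [e1]
            exact le_trans (Valuation.map_add _ _ _) (max_le ha hone.le)
          have hb' : Valued.v (z * t⁻¹) ≤ 1 := by
            have e1 : z * t⁻¹ = (z * t⁻¹ - 1) + 1 := by ring
            rw [e1]
            exact le_trans (Valuation.map_add _ _ _) (max_le hb hone.le)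
          rw [map_mul, map_inv₀, hvt, hvz, ← WithZero.exp_neg, ← WithZero.exp_add,
            ← WithZero.exp_zero, WithZero.exp_le_exp] at ha' hb'
          omega
        · intro h
          have ha' : Valued.v (t * z⁻¹) ≤ 1 := by
            rw [map_mul, map_inv₀, hvt, hvz, ← WithZero.exp_neg, ← WithZero.exp_add,
              ← WithZero.exp_zero, WithZero.exp_le_exp]
            omega
          have hb' : Valued.v (z * t⁻¹) ≤ 1 := by
            rw [map_mul, map_inv₀, hvt, hvz, ← WithZero.exp_neg, ← WithZero.exp_add,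
              ← WithZero.exp_zero, WithZero.exp_le_exp]
            omega
          exact ⟨le_trans (Valuation.map_sub _ _ _) (max_le ha' hone.le),
            le_trans (Valuation.map_sub _ _ _) (max_le hb' hone.le)⟩
      rw [hS, key]
      constructor
      · intro h
        rw [if_pos h.le, if_neg (by omega), sub_zero]
      · intro h
        by_cases h3 : lt ≤ lz
        · rw [if_pos h3, if_pos (by omega), sub_self]
        · rw [if_neg h3, if_neg (by omega), sub_self]
  · -- `e ≥ 1`: the orbit is the coset `z + z ϖ^e 𝒪_v`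
    obtain ⟨n, c, u, hu, hsum⟩ := indicator_exists557 v χ d h1 h2 (d + e) (lz - e) z hz
    refine ⟨n, c, u, fun i => ?_, fun t ht0 ht => ?_⟩
    · refine le_trans (hu i) (WithZero.exp_le_exp.mpr ?_)
      have : max (e : ℤ) 1 = e := max_eq_left (by exact_mod_cast he)
      rw [this]
      omega
    · have hvt := val_eq_exp_log557 v ht0
      have key : (Valued.v (t * z⁻¹ - 1) ≤ WithZero.exp (-(e : ℤ)) ∧
            Valued.v (z * t⁻¹ - 1) ≤ WithZero.exp (-(e : ℤ)))
          ↔ Valued.v (t - z) ≤ WithZero.exp (lz - e) := by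
        constructor
        · rintro ⟨ha, -⟩
          have e1 : t - z = (t * z⁻¹ - 1) * z := by
            field_simp
          rw [e1, map_mul, hvz]
          calc Valued.v (t * z⁻¹ - 1) * WithZero.exp lz
              ≤ WithZero.exp (-(e : ℤ)) * WithZero.exp lz := mul_le_mul_left ha _
            _ = WithZero.exp (lz - e) := by rw [← WithZero.exp_add]; congr 1; ring
        · intro h
          have hlt : Valued.v (t - z) < Valued.v z := by
            refine lt_of_le_of_lt h ?_
            rw [hvz, WithZero.exp_lt_exp]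
            have : (1 : ℤ) ≤ e := by exact_mod_cast he
            omega
          have hvtz : Valued.v t = Valued.v z := Valuation.map_eq_of_sub_lt _ hlt
          have hb : Valued.v (t - z) * (Valued.v z)⁻¹ ≤ WithZero.exp (-(e : ℤ)) := by
            rw [hvz, ← WithZero.exp_neg]
            calc Valued.v (t - z) * WithZero.exp (-lz)
                ≤ WithZero.exp (lz - e) * WithZero.exp (-lz) := mul_le_mul_left h _
              _ = WithZero.exp (-(e : ℤ)) := by rw [← WithZero.exp_add]; congr 1; ring
          constructor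
          · have e1 : t * z⁻¹ - 1 = (t - z) * z⁻¹ := by
              field_simp
            rw [e1, map_mul, map_inv₀]
            exact hb
          · have e1 : z * t⁻¹ - 1 = (z - t) * t⁻¹ := by
              field_simp
            rw [e1, map_mul, map_inv₀, Valuation.map_sub_swap, hvtz]
            exact hb
      rw [hsum t ht, key]
      constructor
      · intro h
        rw [if_pos h]
      · intro h
        rw [if_neg h]

end Fermat.Agent.LT.T2.H557

end
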