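import Fermat.Agent.LT.T2.H941.SmoSpec
import Fermat.Agent.LT.T2.H333.Book
import Fermat.Agent.LT.T3.H237.ConstTerm
import Fermat.Agent.LT.T2.H557.CutLocal

/-!
# Row LT, tower T2, station T2.10 (`SMO_AA`), leaf T2.10.10 `CutoffC` (helper557), OFF-MAIN

Part 2 (the adele supported at one finite place, the local component of a character).
On `LT/T2/H941/SmoSpec.lean` (helper941), `LT/T2/H333/Book.lean` (helper333),
`LT/T3/H237/ConstTerm.lean` (helper237), byte-identical copies.
-/

set_option autoImplicit false

open IsDedekindDomain NumberField MeasureTheory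
open Fermat.Agent.LT.H556.A0
open Fermat.Agent.LT.T2.H941 Fermat.Agent.LT.T2.H333

noncomputable section

namespace Fermat.Agent.LT.T2.H557

variable {K : Type} [Field K] [NumberField K]

open scoped Classical in
/-- The adele supported at the finite place `v` with component `t`. -/
def loc557 (v : HeightOneSpectrum (𝓞 K)) (t : v.adicCompletion K) : Adl K :=
  (0, ⟨Function.update (fun v' : HeightOneSpectrum (𝓞 K) => (0 : v'.adicCompletion K)) v t, by
    rw [Filter.eventually_cofinite]
    refine (Set.finite_singleton v).subset fun v' hv' => ?_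
    by_contra hne
    apply hv'
    have hne' : v' ≠ v := hne
    simp only [Function.update_of_ne hne']
    exact zero_mem _⟩)

theorem evI333_loc557 (v : HeightOneSpectrum (𝓞 K)) (t : v.adicCompletion K)
    (w : InfinitePlace K) : evI333 w (loc557 v t) = 0 := rfl

open scoped Classical in
theorem evF333_loc557_self (v : HeightOneSpectrum (𝓞 K)) (t : v.adicCompletion K) :
    evF333 v (loc557 v t) = t :=
  Function.update_self v t (fun v' : HeightOneSpectrum (𝓞 K) => (0 : v'.adicCompletion K))

open scoped Classical in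
theorem evF333_loc557_ne {v v' : HeightOneSpectrum (𝓞 K)} (h : v' ≠ v)
    (t : v.adicCompletion K) : evF333 v' (loc557 v t) = 0 :=
  Function.update_of_ne h t (fun v' : HeightOneSpectrum (𝓞 K) => (0 : v'.adicCompletion K))

theorem loc557_self (v : HeightOneSpectrum (𝓞 K)) (t : v.adicCompletion K) :
    (loc557 v t).2 v = t := evF333_loc557_self v t

theorem loc557_ne {v v' : HeightOneSpectrum (𝓞 K)} (h : v' ≠ v) (t : v.adicCompletion K) :
    (loc557 v t).2 v' = 0 := evF333_loc557_ne h t

theorem isLocAdeleAt_loc557 (v : HeightOneSpectrum (𝓞 K)) (t : v.adicCompletion K) :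
    T3.IsLocAdeleAt K v (loc557 v t) :=
  ⟨rfl, fun _ h => loc557_ne h t⟩

/-- An adele is determined by its components (in terms of the evaluation homomorphisms). -/
theorem adele_ext557 {x y : Adl K} (hI : ∀ w : InfinitePlace K, evI333 w x = evI333 w y)
    (hF : ∀ v : HeightOneSpectrum (𝓞 K), evF333 v x = evF333 v y) : x = y :=
  adele_ext333 hI hF

theorem eq_loc557 {v : HeightOneSpectrum (𝓞 K)} {x : Adl K} (hx : T3.IsLocAdeleAt K v x) :
    x = loc557 v (x.2 v) := by
  refine adele_ext557 (fun w => ?_) (fun v' => ?_)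
  · rw [evI333_loc557]
    show x.1 w = 0
    rw [hx.1]
    rfl
  · by_cases h : v' = v
    · subst h
      rw [evF333_loc557_self]
      rfl
    · rw [evF333_loc557_ne h]
      exact hx.2 v' h

theorem mul_loc557 (v : HeightOneSpectrum (𝓞 K)) (y : Adl K) (t : v.adicCompletion K) :
    y * loc557 v t = loc557 v (evF333 v y * t) := by
  refine adele_ext557 (fun w => ?_) (fun v' => ?_)
  · rw [map_mul, evI333_loc557, evI333_loc557, mul_zero]
  · by_cases h : v' = v
    · subst h
      rw [map_mul, evF333_loc557_self, evF333_loc557_self]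
    · rw [map_mul, evF333_loc557_ne h, evF333_loc557_ne h, mul_zero]

theorem loc557_add (v : HeightOneSpectrum (𝓞 K)) (s t : v.adicCompletion K) :
    loc557 v (s + t) = loc557 v s + loc557 v t := by
  refine adele_ext557 (fun w => ?_) (fun v' => ?_)
  · rw [map_add, evI333_loc557, evI333_loc557, evI333_loc557, add_zero]
  · by_cases h : v' = v
    · subst h
      rw [map_add, evF333_loc557_self, evF333_loc557_self, evF333_loc557_self]
    · rw [map_add, evF333_loc557_ne h, evF333_loc557_ne h, evF333_loc557_ne h, add_zero]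

theorem loc557_zero (v : HeightOneSpectrum (𝓞 K)) : loc557 v (0 : v.adicCompletion K) = 0 := by
  refine adele_ext557 (fun w => ?_) (fun v' => ?_)
  · rw [map_zero, evI333_loc557]
  · by_cases h : v' = v
    · subst h
      rw [map_zero, evF333_loc557_self]
    · rw [map_zero, evF333_loc557_ne h]

theorem loc557_neg (v : HeightOneSpectrum (𝓞 K)) (t : v.adicCompletion K) :
    loc557 v (-t) = -loc557 v t := by
  have h := loc557_add v t (-t)
  rw [add_neg_cancel, loc557_zero] at h
  exact (neg_eq_of_add_eq_zero_right h.symm).symm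

/-- The local component of an adelic character. -/
def locChar557 (ψ : AddChar (Adl K) Circle) (v : HeightOneSpectrum (𝓞 K)) :
    AddChar (v.adicCompletion K) Circle where
  toFun t := ψ (loc557 v t)
  map_zero_eq_one' := by rw [loc557_zero]; exact ψ.map_zero_eq_one
  map_add_eq_mul' := fun a b => by rw [loc557_add]; exact ψ.map_add_eq_mul _ _

theorem locChar557_apply (ψ : AddChar (Adl K) Circle) (v : HeightOneSpectrum (𝓞 K))
    (t : v.adicCompletion K) : locChar557 ψ v t = ψ (loc557 v t) := rfl

theorem locChar557_cond {ψ : AddChar (Adl K) Circle} {v : HeightOneSpectrum (𝓞 K)} {d : ℤ}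
    (h : IsCondExp ψ v d) :
    (∀ x : v.adicCompletion K, Valued.v x ≤ WithZero.exp d → locChar557 ψ v x = 1) ∧
      ∃ x : v.adicCompletion K, Valued.v x = WithZero.exp (d + 1) ∧ locChar557 ψ v x ≠ 1 := by
  obtain ⟨h1, x, hx, hxv, hxψ⟩ := h
  refine ⟨fun t ht => ?_, x.2 v, hxv, ?_⟩
  · rw [locChar557_apply]
    refine h1 _ (isLocAdeleAt_loc557 v t) ?_
    rw [loc557_self]
    exact ht
  · rw [locChar557_apply, ← eq_loc557 hx]
    exact hxψ

end Fermat.Agent.LT.T2.H557

end
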