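import Fermat.Agent.LT.T2.H557.CutLoc

/-!
# Row LT, tower T2, station T2.10 (`SMO_AA`), leaf T2.10.10 `CutoffC` (helper557), OFF-MAIN

Part 3 (matrix identities for the unipotent elements `n(x)` and the torus elements `diag(y, 1)`).
-/

set_option autoImplicit false

open IsDedekindDomain NumberField MeasureTheory
open Fermat.Agent.LT.H556.A0
open Fermat.Agent.LT.T2.H941 Fermat.Agent.LT.T2.H333

noncomputable section

namespace Fermat.Agent.LT.T2.H557

variable {K : Type} [Field K] [NumberField K]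

theorem finComp_unip557 (v : HeightOneSpectrum (𝓞 K)) (x : Adl K) :
    finComp v (T3.unip K x) = !![1, evF333 v x; 0, 1] := by
  ext i j
  fin_cases i <;> fin_cases j <;> rfl

theorem infMap_unip557 (w : InfinitePlace K) (x : Adl K) :
    ((T3.unip K x : G K) : Matrix (Fin 2) (Fin 2) (Adl K)).map (evI333 w)
      = !![1, evI333 w x; 0, 1] := by
  ext i j
  fin_cases i <;> fin_cases j <;> rfl

theorem finComp_tor557 (v : HeightOneSpectrum (𝓞 K)) (y : (Adl K)ˣ) :
    finComp v (tor y) = !![evF333 v (y : Adl K), 0; 0, 1] := by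
  ext i j
  fin_cases i <;> fin_cases j <;> rfl

theorem infMap_tor557 (w : InfinitePlace K) (y : (Adl K)ˣ) :
    ((tor y : G K) : Matrix (Fin 2) (Fin 2) (Adl K)).map (evI333 w)
      = !![evI333 w (y : Adl K), 0; 0, 1] := by
  ext i j
  fin_cases i <;> fin_cases j <;> rfl

theorem unip_inv557 (x : Adl K) : (T3.unip K x)⁻¹ = T3.unip K (-x) := by
  apply Units.ext
  ext i j
  fin_cases i <;> fin_cases j <;> simp [T3.unip]

theorem tor_inv557 (y : (Adl K)ˣ) : (tor y)⁻¹ = tor y⁻¹ := by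
  apply Units.ext
  ext i j
  fin_cases i <;> fin_cases j <;> simp [tor]

theorem tor_mul557 (y z : (Adl K)ˣ) : tor (y * z) = tor y * tor z := by
  apply Units.ext
  ext i j
  fin_cases i <;> fin_cases j <;> simp [tor, Matrix.mul_apply, Fin.sum_univ_two]

theorem tor_mul_unip557 (y : (Adl K)ˣ) (x : Adl K) :
    tor y * T3.unip K x = T3.unip K ((y : Adl K) * x) * tor y := by
  apply Units.ext
  ext i j
  fin_cases i <;> fin_cases j <;> simp [tor, T3.unip, Matrix.mul_apply, Fin.sum_univ_two]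

/-! ## Elements supported at `v` -/

theorem isUnipAt_unip_loc557 (v : HeightOneSpectrum (𝓞 K)) (u : v.adicCompletion K) :
    IsUnipAt v (T3.unip K (loc557 v u)) u := by
  refine ⟨⟨fun w => ?_, fun v' h => ?_⟩, ?_⟩
  · rw [trivAtInf_iff333, infMap_unip557, evI333_loc557, Matrix.one_fin_two]
  · show finComp v' (T3.unip K (loc557 v u)) = 1
    rw [finComp_unip557, evF333_loc557_ne h, Matrix.one_fin_two]
  · rw [finComp_unip557, evF333_loc557_self]

theorem isLocalAtFin_tor557 {v : HeightOneSpectrum (𝓞 K)} {y : (Adl K)ˣ}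
    (hy : IsIdeleAtFin v y) : IsLocalAtFin v (tor y) := by
  refine ⟨fun w => ?_, fun v' h => ?_⟩
  · rw [trivAtInf_iff333, infMap_tor557, Matrix.one_fin_two]
    have : evI333 w (y : Adl K) = 1 := hy.1 w
    rw [this]
  · show finComp v' (tor y) = 1
    rw [finComp_tor557, Matrix.one_fin_two]
    have : evF333 v' (y : Adl K) = 1 := hy.2 v' h
    rw [this]

theorem evF333_mul_inv557 (v : HeightOneSpectrum (𝓞 K)) (y : (Adl K)ˣ) :
    evF333 v (y : Adl K) * evF333 v ((y⁻¹ : (Adl K)ˣ) : Adl K) = 1 := by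
  rw [← map_mul, ← Units.val_mul, mul_inv_cancel, Units.val_one, map_one]

theorem evI333_mul_inv557 (w : InfinitePlace K) (y : (Adl K)ˣ) :
    evI333 w (y : Adl K) * evI333 w ((y⁻¹ : (Adl K)ˣ) : Adl K) = 1 := by
  rw [← map_mul, ← Units.val_mul, mul_inv_cancel, Units.val_one, map_one]

theorem evF333_unit_ne_zero557 (v : HeightOneSpectrum (𝓞 K)) (y : (Adl K)ˣ) :
    evF333 v (y : Adl K) ≠ 0 := by
  intro h
  have := evF333_mul_inv557 v y
  rw [h, zero_mul] at this
  exact zero_ne_one this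

theorem evF333_inv557 (v : HeightOneSpectrum (𝓞 K)) (y : (Adl K)ˣ) :
    evF333 v ((y⁻¹ : (Adl K)ˣ) : Adl K) = (evF333 v (y : Adl K))⁻¹ :=
  eq_inv_of_mul_eq_one_right (evF333_mul_inv557 v y)

theorem isIdeleAtFin_inv557 {v : HeightOneSpectrum (𝓞 K)} {y : (Adl K)ˣ}
    (hy : IsIdeleAtFin v y) : IsIdeleAtFin v y⁻¹ := by
  refine ⟨fun w => ?_, fun v' h => ?_⟩
  · have h1 := evI333_mul_inv557 w y
    have h2 : evI333 w (y : Adl K) = 1 := hy.1 w
    rw [h2, one_mul] at h1
    exact h1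
  · have h1 := evF333_mul_inv557 v' y
    have h2 : evF333 v' (y : Adl K) = 1 := hy.2 v' h
    rw [h2, one_mul] at h1
    exact h1

theorem isIdeleAtFin_mul557 {v : HeightOneSpectrum (𝓞 K)} {y z : (Adl K)ˣ}
    (hy : IsIdeleAtFin v y) (hz : IsIdeleAtFin v z) : IsIdeleAtFin v (y * z) := by
  refine ⟨fun w => ?_, fun v' h => ?_⟩
  · show evI333 w ((y * z : (Adl K)ˣ) : Adl K) = 1
    have h1 : evI333 w (y : Adl K) = 1 := hy.1 w
    have h2 : evI333 w (z : Adl K) = 1 := hz.1 w
    rw [Units.val_mul, map_mul, h1, h2, one_mul]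
  · show evF333 v' ((y * z : (Adl K)ˣ) : Adl K) = 1
    have h1 : evF333 v' (y : Adl K) = 1 := hy.2 v' h
    have h2 : evF333 v' (z : Adl K) = 1 := hz.2 v' h
    rw [Units.val_mul, map_mul, h1, h2, one_mul]

end Fermat.Agent.LT.T2.H557

end
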