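import Fermat.Agent.LT.T2.H557.CutLevel

/-!
# Row LT, tower T2, station T2.10 (`SMO_AA`), leaf T2.10.10 `CutoffC` (helper557), OFF-MAIN

Part 5 (the Whittaker coefficient).
* `wh_lin557` : `W` is linear in finite combinations of right translates;
* `wh_rt_unip557` : `W_{R(n(u)) Φ}(diag(y,1) g) = ψ(y u) W_Φ(diag(y,1) g)` (`u` at `v`, `g` trivial
  at `v`);
* `wh_support557` : `W_Φ(diag(y,1) g) = 0` unless `ψ_v(y 𝔪 𝒪_v) = 1`;
* `wh_orbit557` : `W_Φ(diag(y,1) g)` is constant on the orbits of the torus of `U(𝔪)_v`.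
-/

set_option autoImplicit false
set_option linter.unusedSectionVars false
set_option linter.style.haveILetI false

open IsDedekindDomain NumberField MeasureTheory
open Fermat.Agent.LT.H556.A0
open Fermat.Agent.LT.T2.H941 Fermat.Agent.LT.T2.H333 Fermat.Agent.LT.T3.H237

noncomputable section

namespace Fermat.Agent.LT.T2.H557

variable {K : Type} [Field K] [NumberField K]

theorem circle_conj_mul557 (z : Circle) : (starRingEnd ℂ) (z : ℂ) * (z : ℂ) = 1 := by
  rw [← Circle.coe_inv_eq_conj, ← Circle.coe_mul, inv_mul_cancel, Circle.coe_one]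

section Meas

variable [MeasurableSpace (Adl K)] [BorelSpace (Adl K)]

theorem continuous_whInt557 {ψ : AddChar (Adl K) Circle} (hψ : Continuous ψ) {Φ : G K → ℂ}
    (hΦ : Continuous Φ) (g : G K) :
    Continuous (fun x : Adl K => Φ (T3.unip K x * g) * (starRingEnd ℂ) ((ψ x : Circle) : ℂ)) := by
  have h1 : Continuous (fun x : Adl K => T3.unip K x * g) :=
    (continuous_unip237 K).mul continuous_const
  exact (hΦ.comp h1).mul (Complex.continuous_conj.comp (continuous_subtype_val.comp hψ))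

theorem integrableOn_whInt557 {ψ : AddChar (Adl K) Circle} (hψ : Continuous ψ)
    {ν : Measure (Adl K)} {D : Set (Adl K)} (hD : ν D < ⊤) {Φ : G K → ℂ}
    (hΦ : Continuous Φ) (hb : ∃ C : ℝ, ∀ g : G K, ‖Φ g‖ ≤ C) (g : G K) :
    IntegrableOn
      (fun x : Adl K => Φ (T3.unip K x * g) * (starRingEnd ℂ) ((ψ x : Circle) : ℂ)) D ν := by
  obtain ⟨C, hC⟩ := hb
  refine Measure.integrableOn_of_bounded (M := C) hD.ne
    (continuous_whInt557 hψ hΦ g).aestronglyMeasurable ?_
  filter_upwards with x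
  rw [norm_mul, RCLike.norm_conj, Circle.norm_coe, mul_one]
  exact hC _

/-- `W` of a finite combination of right translates. -/
theorem wh_lin557 {ψ : AddChar (Adl K) Circle} (hψ : Continuous ψ)
    {ν : Measure (Adl K)} {D : Set (Adl K)} (hD : ν D < ⊤) {Φ : G K → ℂ}
    (hΦ : Continuous Φ) (hb : ∃ C : ℝ, ∀ g : G K, ‖Φ g‖ ≤ C)
    {n : ℕ} (c : Fin n → ℂ) (p : Fin n → G K) (g : G K) :
    wh ψ ν D (lin c p Φ) g = ∑ i, c i * wh ψ ν D (rt (p i) Φ) g := by
  unfold wh
  have h1 : ∀ x : Adl K, lin c p Φ (T3.unip K x * g) * (starRingEnd ℂ) ((ψ x : Circle) : ℂ)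
      = ∑ i, c i * (rt (p i) Φ (T3.unip K x * g) * (starRingEnd ℂ) ((ψ x : Circle) : ℂ)) := by
    intro x
    unfold lin rt
    rw [Finset.sum_mul]
    refine Finset.sum_congr rfl fun i _ => ?_
    ring
  simp_rw [h1]
  have hint : ∀ i ∈ (Finset.univ : Finset (Fin n)), Integrable
      (fun x : Adl K => c i * (rt (p i) Φ (T3.unip K x * g)
        * (starRingEnd ℂ) ((ψ x : Circle) : ℂ))) (ν.restrict D) := by
    intro i _
    have hc : Continuous (rt (p i) Φ) := hΦ.comp (continuous_mul_const (p i))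
    have hb' : ∃ C : ℝ, ∀ g : G K, ‖rt (p i) Φ g‖ ≤ C := by
      obtain ⟨C, hC⟩ := hb
      exact ⟨C, fun g => hC _⟩
    exact (integrableOn_whInt557 hψ hD hc hb' g).integrable.const_mul (c i)
  rw [integral_finsetSum _ hint]
  refine Finset.sum_congr rfl fun i _ => ?_
  exact integral_const_mul _ _

/-- THE TRANSFORMATION FORMULA. -/
theorem wh_rt_unip557 {ψ : AddChar (Adl K) Circle} {ν : Measure (Adl K)} {D : Set (Adl K)}
    (hdata : IsWhitData ψ ν D) {Φ : G K → ℂ}
    (hleft : ∀ (γ : GL (Fin 2) K) (g : G K), Φ (T1.ratG K γ * g) = Φ g)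
    {v : HeightOneSpectrum (𝓞 K)} (y : (Adl K)ˣ) {g : G K} (hg : TrivAtFin v g)
    (u : v.adicCompletion K) :
    wh ψ ν D (rt (T3.unip K (loc557 v u)) Φ) (tor y * g)
      = ((ψ ((y : Adl K) * loc557 v u) : Circle) : ℂ) * wh ψ ν D Φ (tor y * g) := by
  obtain ⟨hstd, -, -, hhaar, -, hfd, -⟩ := hdata
  haveI := hhaar
  have hcomm : T3.unip K (loc557 v u) * g = g * T3.unip K (loc557 v u) :=
    comm_of_local_triv333 (isUnipAt_unip_loc557 v u).1 hg
  have hkey : ∀ x : Adl K, T3.unip K x * (tor y * g) * T3.unip K (loc557 v u)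
      = T3.unip K (x + (y : Adl K) * loc557 v u) * (tor y * g) := by
    intro x
    calc T3.unip K x * (tor y * g) * T3.unip K (loc557 v u)
        = T3.unip K x * (tor y * (g * T3.unip K (loc557 v u))) := by group
      _ = T3.unip K x * (tor y * (T3.unip K (loc557 v u) * g)) := by rw [hcomm]
      _ = T3.unip K x * ((tor y * T3.unip K (loc557 v u)) * g) := by group
      _ = T3.unip K x * ((T3.unip K ((y : Adl K) * loc557 v u) * tor y) * g) := by
          rw [tor_mul_unip557]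
      _ = T3.unip K (x + (y : Adl K) * loc557 v u) * (tor y * g) := by
          rw [unip_add237]
          group
  have hper : IsPer237 K (fun x : Adl K =>
      Φ (T3.unip K x * (tor y * g)) * (starRingEnd ℂ) ((ψ x : Circle) : ℂ)) := by
    intro ξ x
    show Φ (T3.unip K (x + algebraMap K (Adl K) ξ) * (tor y * g))
        * (starRingEnd ℂ) ((ψ (x + algebraMap K (Adl K) ξ) : Circle) : ℂ)
      = Φ (T3.unip K x * (tor y * g)) * (starRingEnd ℂ) ((ψ x : Circle) : ℂ)
    have e1 : T3.unip K (x + algebraMap K (Adl K) ξ) * (tor y * g)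
        = T1.ratG K (nK237 K ξ) * (T3.unip K x * (tor y * g)) := by
      rw [add_comm, unip_add237, unip_emb237, mul_assoc]
      rfl
    have e2 : ψ (x + algebraMap K (Adl K) ξ) = ψ x := by
      rw [AddChar.map_add_eq_mul, hstd.triv ξ, mul_one]
    rw [e1, hleft, e2]
  have hint : ∀ x : Adl K, rt (T3.unip K (loc557 v u)) Φ (T3.unip K x * (tor y * g))
        * (starRingEnd ℂ) ((ψ x : Circle) : ℂ)
      = (fun x : Adl K => Φ (T3.unip K x * (tor y * g))
          * (starRingEnd ℂ) ((ψ x : Circle) : ℂ)) (x + (y : Adl K) * loc557 v u)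
        * ((ψ ((y : Adl K) * loc557 v u) : Circle) : ℂ) := by
    intro x
    show Φ (T3.unip K x * (tor y * g) * T3.unip K (loc557 v u))
        * (starRingEnd ℂ) ((ψ x : Circle) : ℂ)
      = Φ (T3.unip K (x + (y : Adl K) * loc557 v u) * (tor y * g))
          * (starRingEnd ℂ) ((ψ (x + (y : Adl K) * loc557 v u) : Circle) : ℂ)
        * ((ψ ((y : Adl K) * loc557 v u) : Circle) : ℂ)
    rw [hkey, AddChar.map_add_eq_mul, Circle.coe_mul, map_mul, mul_assoc, mul_assoc,
      circle_conj_mul557, mul_one]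
  unfold wh
  simp_rw [hint]
  rw [integral_mul_const, setIntegral_add_right237 K ν D hfd _ hper, mul_comm]

/-- THE SUPPORT of the Whittaker coefficient of a function of level `U(𝔪)`. -/
theorem wh_support557 {ψ : AddChar (Adl K) Circle} {ν : Measure (Adl K)} {D : Set (Adl K)}
    (hdata : IsWhitData ψ ν D) {Φ : G K → ℂ}
    (hleft : ∀ (γ : GL (Fin 2) K) (g : G K), Φ (T1.ratG K γ * g) = Φ g)
    {𝔪 : Ideal (𝓞 K)} (hΦ : IsLevel 𝔪 Φ) {v : HeightOneSpectrum (𝓞 K)} {e : ℕ}
    (hC : ∀ x : v.adicCompletion K,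
      x ∈ idealClosure 𝔪 v ↔ Valued.v x ≤ WithZero.exp (-(e : ℤ)))
    (y : (Adl K)ˣ) {g : G K} (hg : TrivAtFin v g)
    {t : v.adicCompletion K} (ht : Valued.v t ≤ WithZero.exp (-(e : ℤ)))
    (hψt : ψ ((y : Adl K) * loc557 v t) ≠ 1) :
    wh ψ ν D Φ (tor y * g) = 0 := by
  have h1 : rt (T3.unip K (loc557 v t)) Φ = Φ := by
    funext x
    exact hΦ _ (inLevelGroup_unip557 hC ht) x
  have h2 := wh_rt_unip557 hdata hleft y hg t
  rw [h1] at h2
  have h3 : (1 - ((ψ ((y : Adl K) * loc557 v t) : Circle) : ℂ)) * wh ψ ν D Φ (tor y * g) = 0 := by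
    linear_combination h2
  rcases mul_eq_zero.mp h3 with h | h
  · exact absurd (Circle.coe_eq_one.mp (sub_eq_zero.mp h).symm) hψt
  · exact h

end Meas

/-- ORBIT INVARIANCE of the Whittaker coefficient of a function of level `U(𝔪)`. -/
theorem wh_orbit557 {ψ : AddChar (Adl K) Circle} {m : MeasurableSpace (Adl K)}
    {ν : Measure (Adl K)} {D : Set (Adl K)} {Φ : G K → ℂ}
    {𝔪 : Ideal (𝓞 K)} (hΦ : IsLevel 𝔪 Φ) {v : HeightOneSpectrum (𝓞 K)}
    {y y₀ : (Adl K)ˣ} (hy : IsIdeleAtFin v y) (hy₀ : IsIdeleAtFin v y₀)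
    (horb : InOrbit 𝔪 v y y₀) {g : G K} (hg : TrivAtFin v g) :
    wh ψ ν D Φ (tor y * g) = wh ψ ν D Φ (tor y₀ * g) := by
  have hz : IsIdeleAtFin v (y * y₀⁻¹) := isIdeleAtFin_mul557 hy (isIdeleAtFin_inv557 hy₀)
  have hinv : (y * y₀⁻¹)⁻¹ = y₀ * y⁻¹ := by
    rw [mul_inv_rev, inv_inv]
  have hlev : InLevelGroup 𝔪 (tor (y * y₀⁻¹)) := by
    refine inLevelGroup_tor557 hz horb.1 ?_
    rw [hinv]
    exact horb.2
  have hcomm : tor (y * y₀⁻¹) * g = g * tor (y * y₀⁻¹) :=
    comm_of_local_triv333 (isLocalAtFin_tor557 hz) hg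
  have hy' : y = y₀ * (y * y₀⁻¹) := by
    rw [mul_comm y, mul_inv_cancel_left]
  have e1 : tor y * g = tor y₀ * g * tor (y * y₀⁻¹) := by
    conv_lhs => rw [hy']
    rw [tor_mul557, mul_assoc, hcomm, mul_assoc]
  unfold wh
  congr 1
  funext x
  rw [e1, ← mul_assoc, hΦ _ hlev]

end Fermat.Agent.LT.T2.H557

end
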